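/-
PROGRAMME III (row 43, target S48 = Deligne–Serre), kernel DS3, abstract core (helper15). Mathlib only.

* `sum_bad_primes_le`  : finitely many coefficient systems `a i : ℕ → ℂ` with Rankin bounds
    `∑_{p ∈ F} ‖a i p‖² / p^s ≤ κ i · log (1/(s-1)) + C i` (helper20's `rankin_kappa`): the primes `p ∤ N`
    at which SOME system has `‖a i p‖² ≥ c` satisfy `∑_{p ∈ F} 1 / p^s ≤ ((∑ κ) log (1/(s-1)) + ∑ C) / c`
    ("upper logarithmic density `≤ (∑ κ) / c`", finite-sum form);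
* `le_of_log_bounds`   : the transfer inequality: an upper bound `κ' · log + C` and a lower bound
    `(β - δ) · log - K₀` for sums over the same primes force `β ≤ κ' + δ`;
* `finite_bounded_house` : Northcott in the form needed: for a number field `K`, `D ≠ 0` and `c`, the set of
    `x ∈ K` with `D x` integral and all `‖φ x‖² ≤ c` is finite.
-/
import Mathlib

set_option autoImplicit false

namespace Fermat.Agent.DS.Density

open Finset

/-- **DS3, abstract core.** -/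
theorem sum_bad_primes_le {ι : Type*} [Fintype ι] (a : ι → ℕ → ℂ) (N : ℕ) (κ C : ι → ℝ)
    (hR : ∀ i, ∀ s : ℝ, 1 < s → s ≤ 2 → ∀ F : Finset ℕ, (∀ p ∈ F, p.Prime ∧ ¬ p ∣ N) →
      ∑ p ∈ F, ‖a i p‖ ^ 2 / (p : ℝ) ^ s ≤ κ i * Real.log (1 / (s - 1)) + C i)
    {c : ℝ} (hc : 0 < c) {s : ℝ} (hs1 : 1 < s) (hs2 : s ≤ 2) (F : Finset ℕ)
    (hF : ∀ p ∈ F, p.Prime ∧ ¬ p ∣ N ∧ ∃ i, c ≤ ‖a i p‖ ^ 2) :
    ∑ p ∈ F, 1 / (p : ℝ) ^ s ≤
      ((∑ i, κ i) * Real.log (1 / (s - 1)) + ∑ i, C i) / c := by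
  have hF' : ∀ p ∈ F, p.Prime ∧ ¬ p ∣ N := fun p hp => ⟨(hF p hp).1, (hF p hp).2.1⟩
  have hterm : ∀ p ∈ F, 1 / (p : ℝ) ^ s ≤ (∑ i, ‖a i p‖ ^ 2 / (p : ℝ) ^ s) / c := fun p hp => by
    obtain ⟨hpp, -, i, hi⟩ := hF p hp
    have hpos : (0 : ℝ) < (p : ℝ) ^ s := Real.rpow_pos_of_pos (by exact_mod_cast hpp.pos) s
    rw [le_div_iff₀ hc]
    calc 1 / (p : ℝ) ^ s * c = c / (p : ℝ) ^ s := by ring
      _ ≤ ‖a i p‖ ^ 2 / (p : ℝ) ^ s := div_le_div_of_nonneg_right hi hpos.le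
      _ ≤ ∑ j, ‖a j p‖ ^ 2 / (p : ℝ) ^ s :=
          single_le_sum (f := fun j => ‖a j p‖ ^ 2 / (p : ℝ) ^ s)
            (fun j _ => by positivity) (mem_univ i)
  calc ∑ p ∈ F, 1 / (p : ℝ) ^ s ≤ ∑ p ∈ F, (∑ i, ‖a i p‖ ^ 2 / (p : ℝ) ^ s) / c :=
        sum_le_sum hterm
    _ = (∑ i, ∑ p ∈ F, ‖a i p‖ ^ 2 / (p : ℝ) ^ s) / c := by
        rw [← sum_div, sum_comm]
    _ ≤ (∑ i, (κ i * Real.log (1 / (s - 1)) + C i)) / c :=
        div_le_div_of_nonneg_right (sum_le_sum fun i _ => hR i s hs1 hs2 F hF') hc.le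
    _ = ((∑ i, κ i) * Real.log (1 / (s - 1)) + ∑ i, C i) / c := by
        rw [sum_add_distrib, sum_mul]

/-- `log (1 / (s - 1))` is unbounded on `(1, 2]`. -/
theorem exists_log_gt (R : ℝ) : ∃ s : ℝ, 1 < s ∧ s ≤ 2 ∧ R < Real.log (1 / (s - 1)) := by
  refine ⟨1 + Real.exp (-(|R| + 1)), by linarith [Real.exp_pos (-(|R| + 1))], ?_, ?_⟩
  · have : Real.exp (-(|R| + 1)) ≤ 1 := by
      rw [Real.exp_le_one_iff]
      linarith [abs_nonneg R]
    linarith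
  · rw [add_sub_cancel_left, one_div, ← Real.exp_neg, Real.log_exp, neg_neg]
    linarith [le_abs_self R]

/-- **The transfer inequality**: if for every `s ∈ (1, 2]` some quantity `S s` is at most
`κ' · log (1/(s-1)) + C` and at least `(β - δ) · log (1/(s-1)) - K₀`, then `β ≤ κ' + δ`. -/
theorem le_of_log_bounds {β δ κ' C K₀ : ℝ}
    (h : ∀ s : ℝ, 1 < s → s ≤ 2 → ∃ S : ℝ, S ≤ κ' * Real.log (1 / (s - 1)) + C ∧
      (β - δ) * Real.log (1 / (s - 1)) - K₀ ≤ S) :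
    β ≤ κ' + δ := by
  by_contra hcon
  push Not at hcon
  set γ : ℝ := β - δ - κ' with hγ
  have hγ0 : 0 < γ := by rw [hγ]; linarith
  obtain ⟨s, hs1, hs2, hs⟩ := exists_log_gt ((C + K₀) / γ)
  obtain ⟨S, hS1, hS2⟩ := h s hs1 hs2
  have h1 : γ * Real.log (1 / (s - 1)) ≤ C + K₀ := by
    have : (β - δ) * Real.log (1 / (s - 1)) - K₀ ≤ κ' * Real.log (1 / (s - 1)) + C :=
      hS2.trans hS1
    rw [hγ]
    linarith
  rw [div_lt_iff₀ hγ0] at hs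
  linarith

/-- **Northcott**, in the form needed by DS3: bounded denominators and bounded house. -/
theorem finite_bounded_house (K : Type*) [Field K] [NumberField K] (D : ℤ) (hD : D ≠ 0) (c : ℝ) :
    {x : K | IsIntegral ℤ ((D : K) * x) ∧ ∀ φ : K →+* ℂ, ‖φ x‖ ^ 2 ≤ c}.Finite := by
  have hfin := NumberField.Embeddings.finite_of_norm_le K ℂ (|(D : ℝ)| * (Real.sqrt (|c|) + 1))
  have hDK : (D : K) ≠ 0 := by exact_mod_cast hD
  refine (hfin.preimage (f := fun x : K => (D : K) * x)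
    (fun x _ y _ hxy => mul_left_cancel₀ hDK hxy)).subset ?_
  intro x hx
  refine ⟨hx.1, fun φ => ?_⟩
  rw [map_mul, norm_mul, map_intCast, Complex.norm_intCast]
  refine mul_le_mul_of_nonneg_left ?_ (abs_nonneg _)
  have h1 : ‖φ x‖ ^ 2 ≤ |c| := (hx.2 φ).trans (le_abs_self c)
  have h2 : ‖φ x‖ ≤ Real.sqrt (|c|) := Real.le_sqrt_of_sq_le h1
  linarith

end Fermat.Agent.DS.Density
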