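/-
PROGRAMME III (S48, Deligne–Serre), kernel DS3 (helper15): the finite value set.

`ds3 : S48Skeleton.DS3` — from DS1a (conjugate eigensystems), DS1b (integrality, number field) and
DS2 (Rankin, constant one): for every `η > 0` there are a finite `Y ⊆ ℂ` and `C` with
`∑_{p ∈ F} p^{-s} ≤ η log (1/(s-1)) + C` for all `s ∈ (1, 2]` and all finite sets `F` of primes
`p ∤ N` with `a_p ∉ Y`.

Proof: `K ⊆ ℂ` the number field of DS1b, `d` the number of its embeddings `τ : K →+* ℂ`; each `τ`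
extends to `σ_τ ∈ Aut ℂ` (helper22, `DS1/AutCK`); DS1a (same level `N`) and DS2 for `σ_τ ∘ a`;
`Y` := the Northcott set of the
integers of `K` all of whose conjugates have `|·|² ≤ (d+1)/η` (`Density/ValueSet`).
-/
import Fermat.Agent.DS.S48Skeleton
import Fermat.Agent.DS.DS1.AutCK
import Fermat.Agent.DS.Density.ValueSet

set_option autoImplicit false
set_option linter.style.haveILetI false

namespace Fermat.Agent.DS.Density

open Fermat.Agent.DS.S48Skeleton Fermat.Agent.DS.DS1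

/-- DS2 for one conjugate system (DS1a at the same level). -/
theorem exists_bound_conj (h1a : DS1a) (h2 : DS2) (N : ℕ) [NeZero N]
    (ε : DirichletCharacter ℂ N) (a : ℕ → ℂ) (hW : IsW1Sys N ε a) (σ : ℂ ≃+* ℂ) :
    ∃ C : ℝ, ∀ s : ℝ, 1 < s → s ≤ 2 → ∀ F : Finset ℕ, (∀ p ∈ F, p.Prime ∧ ¬ p ∣ N) →
      ∑ p ∈ F, ‖σ (a p)‖ ^ 2 / (p : ℝ) ^ s ≤ 1 * Real.log (1 / (s - 1)) + C := by
  obtain ⟨C, hC⟩ := h2 N _ _ (h1a N ε a hW σ)
  refine ⟨C, fun s h1 h2' F hF => ?_⟩
  rw [one_mul]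
  refine le_trans (le_of_eq ?_) (hC s h1 h2' F hF)
  refine Finset.sum_congr rfl fun p _ => ?_
  rw [Real.rpow_neg (Nat.cast_nonneg p), div_eq_mul_inv]

/-- **DS3**: the finite value set. -/
theorem ds3 : DS3 := by
  intro h1a h1b h2 N _ ε a hW η hη
  classical
  obtain ⟨hint, K, hKfd, haK⟩ := h1b N ε a hW
  haveI := hKfd
  haveI : NumberField K := ⟨⟩
  have hKalg : Algebra.IsAlgebraic ℚ K := Algebra.IsAlgebraic.of_finite ℚ K
  -- every embedding extends to an automorphism of `ℂ`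
  choose σ hσ using fun τ : K →+* ℂ => exists_ringEquiv_extends K hKalg τ
  -- Rankin for every conjugate
  choose Cτ hCτ using fun τ : K →+* ℂ => exists_bound_conj h1a h2 N ε a hW (σ τ)
  -- the threshold
  set d : ℝ := (Fintype.card (K →+* ℂ) : ℝ) with hd
  have hd0 : 0 ≤ d := Nat.cast_nonneg _
  set c : ℝ := (d + 1) / η with hc
  have hc0 : 0 < c := div_pos (by linarith) hη
  -- the Northcott set
  have hfin := finite_bounded_house K 1 one_ne_zero c
  set Y : Finset ℂ := hfin.toFinset.image (fun x : K => (x : ℂ)) with hY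
  refine ⟨Y, (∑ τ, Cτ τ) / c, fun s h1 h2' F hF => ?_⟩
  have hbad : ∀ p ∈ F, p.Prime ∧ ¬ p ∣ N ∧ ∃ τ : K →+* ℂ, c ≤ ‖σ τ (a p)‖ ^ 2 := by
    intro p hp
    obtain ⟨hpp, hpN, hpY⟩ := hF p hp
    refine ⟨hpp, hpN, ?_⟩
    by_contra hcon
    push Not at hcon
    apply hpY
    rw [hY, Finset.mem_image]
    refine ⟨⟨a p, haK p hpp hpN⟩, ?_, rfl⟩
    rw [Set.Finite.mem_toFinset]
    refine ⟨?_, fun τ => ?_⟩
    · rw [Int.cast_one, one_mul]
      have h3 : IsIntegral ℤ (algebraMap K ℂ ⟨a p, haK p hpp hpN⟩) := hint p hpp hpN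
      exact (isIntegral_algebraMap_iff (algebraMap K ℂ).injective).mp h3
    · have h4 := (hcon τ).le
      rw [hσ τ ⟨a p, haK p hpp hpN⟩] at h4
      exact h4
  have hmain := sum_bad_primes_le (fun τ p => σ τ (a p)) N (fun _ => (1 : ℝ)) Cτ
    (fun τ => hCτ τ) hc0 h1 h2' F hbad
  refine hmain.trans ?_
  have hLG0 : 0 ≤ Real.log (1 / (s - 1)) := by
    apply Real.log_nonneg
    rw [le_div_iff₀ (by linarith)]
    linarith
  have hsum1 : (∑ _τ : K →+* ℂ, (1 : ℝ)) = d := by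
    rw [Finset.sum_const, Finset.card_univ, nsmul_eq_mul, mul_one]
  rw [hsum1, add_div]
  have hdc : d / c ≤ η := by
    rw [hc, div_div_eq_mul_div, div_le_iff₀ (by linarith)]
    nlinarith
  have : d * Real.log (1 / (s - 1)) / c = d / c * Real.log (1 / (s - 1)) := by ring
  rw [this]
  have := mul_le_mul_of_nonneg_right hdc hLG0
  linarith

end Fermat.Agent.DS.Density
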